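import Mathlib
import Fermat.Agent.LT.T7.H671.AdelicPair

/-!
# Row LT, tower T7, node T7.14, leaf T7.14.3c `CovolC` (helper671): SUB-SPEC (helper227), OFF-MAIN

Definitions + frozen sub-leaf Props.  The PROVED top is in `CovolTop.lean`:

* `covolC_of_leaves227 : TopoC227 K → LatC227 K → SliceC227 K → StrictC227 K → H671.CovolC K`.

## The cut (plan (2) of helper671, registry row 1747)

`𝔸² = Fin 2 → Adl K` (row vectors), `μ` a Haar measure of `𝔸²` (Borel σ-algebra),
`U = intRows227 K` the rows which are integral at every finite place,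
`pairOf671 : 𝔸² → (K_∞)²` the infinite part, `Λ_g = latG671 g`.

* `TopoC227`  : `U` is open and `pairOf671` is continuous (so everything is measurable).
* `LatC227`   : `Λ_g` is a lattice of `(K_∞)²` (discrete, spans).
* `SliceC227` : `μ (U ∩ pairOf671 ⁻¹' A) = c · vol A` with `0 < c < ∞`
  (`A ↦ μ (U ∩ pairOf671 ⁻¹' A)` is a Haar measure of `(K_∞)²`).
* `StrictC227`: if `D` is a STRICT fundamental domain of `Λ_g` in `(K_∞)²` then
  `{r : r g ∈ U, pairOf671 (r g) ∈ D}` is a strict fundamental domain of `K²` in `𝔸²`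
  (strong approximation; pure algebra, no measure).

TOP: `μ {r : r g ∈ U, pairOf (r g) ∈ D_g} = ‖det g‖⁻¹ c vol D_g` (`haarScale_GL2_vecMul671`), and
all fundamental domains of `K²` have the same measure; so `covol Λ_g = ‖det g‖ covol Λ_1`.
-/

set_option autoImplicit false
set_option linter.unusedSectionVars false

open NumberField NumberField.mixedEmbedding NumberField.InfinitePlace IsDedekindDomain
  MeasureTheory
open scoped ENNReal Matrix

noncomputable section

namespace Fermat.Agent.LT.T7.H227

open Fermat.Agent.LT.H556 Fermat.Agent.LT.H556.A0 Fermat.Agent.LT.T7.Rigid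
  Fermat.Agent.LT.T7.H671

variable (K : Type) [Field K] [NumberField K]

/-- The diagonal embedding `K² → 𝔸²`. -/
def emb227 : (Fin 2 → K) →+ (Fin 2 → Adl K) where
  toFun x := fun j => algebraMap K (Adl K) (x j)
  map_zero' := by funext j; simp
  map_add' x y := by funext j; simp

/-- The principal rows `K² ⊂ 𝔸²`. -/
def princ2_227 : AddSubgroup (Fin 2 → Adl K) := (emb227 K).range

/-- The rows which are integral at every finite place. -/
def intRows227 : Set (Fin 2 → Adl K) := {r | IsIntRow671 r}

open scoped Classical in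
/-- **T7.14.3c.T (topology).**  The integral rows are open and the infinite part is continuous. -/
def TopoC227 : Prop :=
  IsOpen (intRows227 K) ∧ Continuous (pairOf671 : (Fin 2 → Adl K) → Pair671 K)

open scoped Classical in
/-- **T7.14.3c.L (lattice).**  `latG671 g` is discrete and spans `(K_∞)²`. -/
def LatC227 : Prop :=
  ∀ g : G K, ∃ (_ : DiscreteTopology (latG671 g)), IsZLattice ℝ (latG671 g)

open scoped Classical in
/-- **T7.14.3c.S (slice).**  For a Haar measure `μ` of `𝔸²` the measure
`A ↦ μ (U ∩ pairOf671 ⁻¹' A)` of `(K_∞)²` is a positive finite multiple of the volume. -/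
def SliceC227 : Prop :=
  letI : MeasurableSpace (Fin 2 → Adl K) := borel (Fin 2 → Adl K)
  ∀ μ : Measure (Fin 2 → Adl K), μ.IsAddHaarMeasure →
    ∃ c : ℝ≥0∞, c ≠ 0 ∧ c ≠ ⊤ ∧ ∀ A : Set (Pair671 K), MeasurableSet A →
      μ (intRows227 K ∩ pairOf671 ⁻¹' A) = c * volume A

open scoped Classical in
/-- **T7.14.3c.F (strict fundamental domain).**  If every `e ∈ (K_∞)²` has exactly one translate
by `latG671 g` in `D`, then every row `r ∈ 𝔸²` has exactly one translate `ξ + r`, `ξ ∈ K²`, with
`(ξ + r) g` integral and `pairOf671 ((ξ + r) g) ∈ D`. -/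
def StrictC227 : Prop :=
  ∀ (g : G K) (D : Set (Pair671 K)),
    (∀ e : Pair671 K, ∃! l : latG671 g, (l : Pair671 K) + e ∈ D) →
    ∀ r : Fin 2 → Adl K, ∃! x : Fin 2 → K,
      IsIntRow671 ((emb227 K x + r) ᵥ* (g : Matrix (Fin 2) (Fin 2) (Adl K))) ∧
        pairOf671 ((emb227 K x + r) ᵥ* (g : Matrix (Fin 2) (Fin 2) (Adl K))) ∈ D

end Fermat.Agent.LT.T7.H227

end
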