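import Mathlib
import Fermat.Agent.LT.T7.H227.CovolSpec
import Fermat.Agent.LT.T1.H671.HaarGL2
import Fermat.Agent.LT.T1.H309.AdNorm
import Fermat.Agent.LT.T1.H848.AddFundDom

/-!
# Row LT, tower T7, leaf T7.14.3c `CovolC`: PROVED TOP (helper227), OFF-MAIN

`covolC_of_leaves227 : TopoC227 K → LatC227 K → SliceC227 K → StrictC227 K → H671.CovolC K`.
-/

set_option autoImplicit false
set_option linter.unusedSectionVars false
set_option linter.unusedVariables false
set_option maxHeartbeats 400000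

open NumberField NumberField.mixedEmbedding NumberField.InfinitePlace IsDedekindDomain
  MeasureTheory
open scoped ENNReal Matrix Classical

noncomputable section

namespace Fermat.Agent.LT.T7.H227

open Fermat.Agent.LT.H556 Fermat.Agent.LT.H556.A0 Fermat.Agent.LT.T7.Rigid
  Fermat.Agent.LT.T7.H671

variable {K : Type} [Field K] [NumberField K]

/-- Right multiplication of rows by `g`. -/
def vm227 (g : G K) (r : Fin 2 → Adl K) : Fin 2 → Adl K :=
  r ᵥ* (g : Matrix (Fin 2) (Fin 2) (Adl K))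

theorem vm_vm_inv227 (g : G K) (r : Fin 2 → Adl K) : vm227 g⁻¹ (vm227 g r) = r := by
  unfold vm227
  rw [Matrix.vecMul_vecMul, ← Units.val_mul, mul_inv_cancel, Units.val_one, Matrix.vecMul_one]

theorem vm_inv_vm227 (g : G K) (r : Fin 2 → Adl K) : vm227 g (vm227 g⁻¹ r) = r := by
  unfold vm227
  rw [Matrix.vecMul_vecMul, ← Units.val_mul, inv_mul_cancel, Units.val_one, Matrix.vecMul_one]

theorem preimage_vm227 (g : G K) (X : Set (Fin 2 → Adl K)) :
    vm227 g ⁻¹' X = vm227 g⁻¹ '' X := by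
  ext r
  constructor
  · intro hr
    exact ⟨vm227 g r, hr, vm_vm_inv227 g r⟩
  · rintro ⟨y, hy, rfl⟩
    show vm227 g (vm227 g⁻¹ y) ∈ X
    rw [vm_inv_vm227]
    exact hy

theorem continuous_vm227 (g : G K) : Continuous (vm227 g) := by
  unfold vm227
  exact Continuous.matrix_vecMul continuous_id continuous_const

theorem emb_injective227 : Function.Injective (emb227 K) := by
  intro x y h
  funext j
  have := congrFun h j
  exact AdeleRing.algebraMap_injective (𝓞 K) K this

theorem countable_princ2_227 : Countable (princ2_227 K) := by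
  have := Fermat.Agent.LT.T1.H848.countable_numberField848 K
  exact (AddMonoidHom.rangeRestrict_surjective (emb227 K)).countable

/-- From pairs `x ∈ K²` to elements of the subgroup `princ2_227 K`. -/
theorem existsUnique_princ2_227 (P : (Fin 2 → Adl K) → Prop) (r : Fin 2 → Adl K)
    (h : ∃! x : Fin 2 → K, P (emb227 K x + r)) :
    ∃! ξ : princ2_227 K, P ((ξ : Fin 2 → Adl K) + r) := by
  obtain ⟨x, hx, hu⟩ := h
  refine ⟨⟨emb227 K x, ⟨x, rfl⟩⟩, hx, ?_⟩
  rintro ⟨_, ⟨y, rfl⟩⟩ hy
  have := hu y hy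
  subst this
  rfl

/-- The fundamental domain of a basis of a lattice is a STRICT fundamental domain. -/
theorem strict_lattice227 {E : Type*} [NormedAddCommGroup E] [NormedSpace ℝ E]
    [FiniteDimensional ℝ E] (L : Submodule ℤ E) [DiscreteTopology L] [IsZLattice ℝ L]
    {ι : Type*} [Finite ι] (b : Module.Basis ι ℤ L) (e : E) :
    ∃! l : L, (l : E) + e ∈ ZSpan.fundamentalDomain (b.ofZLatticeBasis ℝ L) := by
  have hspan := Module.Basis.ofZLatticeBasis_span ℝ L b
  obtain ⟨v, hv, hu⟩ := ZSpan.exist_unique_vadd_mem_fundamentalDomain (b.ofZLatticeBasis ℝ L) e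
  have hvL : (v : E) ∈ L := hspan.le v.2
  refine ⟨⟨v.1, hvL⟩, hv, ?_⟩
  intro l hl
  have hl' : (l : E) ∈ Submodule.span ℤ (Set.range (b.ofZLatticeBasis ℝ L)) := hspan.ge l.2
  have h1 := hu ⟨l.1, hl'⟩ hl
  have h2 : (l : E) = (v : E) := congrArg Subtype.val h1
  exact Subtype.ext h2

theorem adNorm_one227 : Fermat.Agent.LT.T1.adNorm K (1 : Adl K) = 1 := by
  have h := Fermat.Agent.LT.T1.H309.adNorm_mul309 (K := K) 1 1
  have hpos := Fermat.Agent.LT.T1.H309.adNorm_pos309 (K := K) 1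
  rw [mul_one] at h
  simp only [Units.val_one] at h hpos
  have h2 : Fermat.Agent.LT.T1.adNorm K (1 : Adl K) * (Fermat.Agent.LT.T1.adNorm K (1 : Adl K) - 1)
      = 0 := by
    rw [mul_sub, mul_one, ← h, sub_self]
  rcases mul_eq_zero.mp h2 with h3 | h3
  · exact absurd h3 (ne_of_gt hpos)
  · linarith

theorem adNorm_det_inv227 (g : G K) :
    Fermat.Agent.LT.T1.adNorm K (Matrix.det ((g⁻¹ : G K) : Matrix (Fin 2) (Fin 2) (Adl K)))
      = (Fermat.Agent.LT.T1.adNorm K (Matrix.det (g : Matrix (Fin 2) (Fin 2) (Adl K))))⁻¹ := by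
  have h := Fermat.Agent.LT.T1.H309.adNorm_mul309 (K := K)
    (Matrix.GeneralLinearGroup.det g⁻¹) (Matrix.GeneralLinearGroup.det g)
  have hpos := Fermat.Agent.LT.T1.H309.adNorm_pos309 (K := K) (Matrix.GeneralLinearGroup.det g)
  rw [← map_mul, inv_mul_cancel, map_one, Units.val_one, adNorm_one227] at h
  have e1 : ((Matrix.GeneralLinearGroup.det g⁻¹ : (Adl K)ˣ) : Adl K)
      = Matrix.det ((g⁻¹ : G K) : Matrix (Fin 2) (Fin 2) (Adl K)) := rfl
  have e2 : ((Matrix.GeneralLinearGroup.det g : (Adl K)ˣ) : Adl K)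
      = Matrix.det (g : Matrix (Fin 2) (Fin 2) (Adl K)) := rfl
  rw [e1, e2] at h
  rw [e2] at hpos
  exact eq_inv_of_mul_eq_one_left h.symm

theorem adNorm_det_pos227 (g : G K) :
    0 < Fermat.Agent.LT.T1.adNorm K (Matrix.det (g : Matrix (Fin 2) (Fin 2) (Adl K))) :=
  Fermat.Agent.LT.T1.H309.adNorm_pos309 (K := K) (Matrix.GeneralLinearGroup.det g)

/-! ## The top -/

section Top

attribute [local instance] Fermat.Agent.LT.T1.H671.locallyCompact_adele671
  Fermat.Agent.LT.T1.H671.secondCountable_adele671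

/-- The set `E_g(D) = {r : r g ∈ U, pairOf671 (r g) ∈ D}`. -/
def fdSet227 (g : G K) (D : Set (Pair671 K)) : Set (Fin 2 → Adl K) :=
  vm227 g ⁻¹' (intRows227 K ∩ pairOf671 ⁻¹' D)

/-- The measure of `E_g(D)`. -/
theorem measure_fdSet227 [MeasurableSpace (Fin 2 → Adl K)] [BorelSpace (Fin 2 → Adl K)]
    (μ : Measure (Fin 2 → Adl K)) [μ.IsAddHaarMeasure] (c : ℝ≥0∞)
    (hc : ∀ A : Set (Pair671 K), MeasurableSet A →
      μ (intRows227 K ∩ pairOf671 ⁻¹' A) = c * volume A)
    (g : G K) (D : Set (Pair671 K)) (hD : MeasurableSet D) :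
    μ (fdSet227 g D)
      = ENNReal.ofReal
          (Fermat.Agent.LT.T1.adNorm K (Matrix.det (g : Matrix (Fin 2) (Fin 2) (Adl K))))⁻¹
        * (c * volume D) := by
  unfold fdSet227
  rw [preimage_vm227, ← hc D hD, ← adNorm_det_inv227]
  exact Fermat.Agent.LT.T1.H671.haarScale_GL2_vecMul671 μ g⁻¹ _

/-- `E_g(D)` is a fundamental domain of `K²` in `𝔸²`. -/
theorem isAddFundamentalDomain_fdSet227 [MeasurableSpace (Fin 2 → Adl K)]
    [BorelSpace (Fin 2 → Adl K)] (μ : Measure (Fin 2 → Adl K))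
    (hT : TopoC227 K) (hF : StrictC227 K) (g : G K) (D : Set (Pair671 K))
    (hDm : MeasurableSet D)
    (hD : ∀ e : Pair671 K, ∃! l : latG671 g, (l : Pair671 K) + e ∈ D) :
    IsAddFundamentalDomain (princ2_227 K) (fdSet227 g D) μ := by
  obtain ⟨hUo, hpc⟩ := hT
  have hm : MeasurableSet (fdSet227 g D) := by
    unfold fdSet227
    exact (continuous_vm227 g).measurable (hUo.measurableSet.inter (hpc.measurable hDm))
  refine IsAddFundamentalDomain.mk' hm.nullMeasurableSet ?_
  intro r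
  have h := existsUnique_princ2_227
    (fun y => IsIntRow671 (y ᵥ* (g : Matrix (Fin 2) (Fin 2) (Adl K)))
      ∧ pairOf671 (y ᵥ* (g : Matrix (Fin 2) (Fin 2) (Adl K))) ∈ D) r (hF g D hD r)
  exact h

theorem adNorm_det_one227 :
    Fermat.Agent.LT.T1.adNorm K (Matrix.det (((1 : G K) : G K) : Matrix (Fin 2) (Fin 2) (Adl K)))
      = 1 := by
  rw [Units.val_one, Matrix.det_one, adNorm_one227]

/-- **THE TOP of T7.14.3c**: the covolume of `latG671 g` is `c₀ ‖det g‖_𝔸`. -/
theorem covolC_of_leaves227 (hT : TopoC227 K) (hL : LatC227 K) (hS : SliceC227 K)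
    (hF : StrictC227 K) : CovolC K := by
  letI : MeasurableSpace (Fin 2 → Adl K) := borel (Fin 2 → Adl K)
  haveI : BorelSpace (Fin 2 → Adl K) := ⟨rfl⟩
  have hHaarP := haarPair671 K
  have hBorelP := borelPair671 K
  let μ : Measure (Fin 2 → Adl K) := Measure.addHaar
  haveI hμH : μ.IsAddHaarMeasure := inferInstance
  obtain ⟨c, hc0, hctop, hc⟩ := hS μ hμH
  haveI := countable_princ2_227 (K := K)
  -- the data at each `g`
  have key : ∀ g : G K, ∃ (hd : DiscreteTopology (latG671 g)) (hz : IsZLattice ℝ (latG671 g)),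
      ∃ D : Set (Pair671 K), IsAddFundamentalDomain (princ2_227 K) (fdSet227 g D) μ ∧
        μ (fdSet227 g D) = ENNReal.ofReal
            (Fermat.Agent.LT.T1.adNorm K (Matrix.det (g : Matrix (Fin 2) (Fin 2) (Adl K))))⁻¹
          * (c * ENNReal.ofReal (ZLattice.covolume (latG671 g) volume)) := by
    intro g
    obtain ⟨hd, hz⟩ := hL g
    let b := Module.Free.chooseBasis ℤ (latG671 g)
    set D : Set (Pair671 K) :=
      ZSpan.fundamentalDomain (b.ofZLatticeBasis ℝ (latG671 g)) with hDdef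
    have hDm : MeasurableSet D := ZSpan.fundamentalDomain_measurableSet _
    have hfd : IsAddFundamentalDomain (latG671 g) D volume :=
      ZLattice.isAddFundamentalDomain b volume
    have hcov : ZLattice.covolume (latG671 g) volume = volume.real D :=
      ZLattice.covolume_eq_measure_fundamentalDomain _ _ hfd
    have hfin : volume D ≠ ⊤ :=
      (ZSpan.fundamentalDomain_isBounded (b.ofZLatticeBasis ℝ (latG671 g))).measure_lt_top.ne
    have hvol : volume D = ENNReal.ofReal (ZLattice.covolume (latG671 g) volume) := by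
      rw [hcov, Measure.real, ENNReal.ofReal_toReal hfin]
    refine ⟨hd, hz, D, isAddFundamentalDomain_fdSet227 μ hT hF g D hDm
      (strict_lattice227 (latG671 g) b), ?_⟩
    rw [measure_fdSet227 μ c hc g D hDm, hvol]
  obtain ⟨hd1, hz1, D1, hfd1, hμ1⟩ := key 1
  have hV1 : 0 < ZLattice.covolume (latG671 (1 : G K)) volume := ZLattice.covolume_pos _ _
  refine ⟨ZLattice.covolume (latG671 (1 : G K)) volume, hV1, fun g => ?_⟩
  obtain ⟨hd, hz, D, hfd, hμg⟩ := key g
  refine ⟨hd, hz, ?_⟩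
  have hVg : 0 < ZLattice.covolume (latG671 g) volume := ZLattice.covolume_pos _ _
  have hN := adNorm_det_pos227 g
  have heq : μ (fdSet227 g D) = μ (fdSet227 1 D1) := hfd.measure_eq hfd1
  rw [hμg, hμ1, adNorm_det_one227, inv_one, ENNReal.ofReal_one, one_mul, mul_left_comm,
    ← ENNReal.ofReal_mul (inv_nonneg.mpr hN.le)] at heq
  have h2 := (ENNReal.mul_right_inj hc0 hctop).mp heq
  have h3 := (ENNReal.ofReal_eq_ofReal_iff (mul_nonneg (inv_nonneg.mpr hN.le) hVg.le) hV1.le).mp h2
  show ZLattice.covolume (latG671 g) volume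
    = ZLattice.covolume (latG671 (1 : G K)) volume
      * Fermat.Agent.LT.T1.adNorm K (Matrix.det (g : Matrix (Fin 2) (Fin 2) (Adl K)))
  rw [← h3]
  field_simp

end Top

end Fermat.Agent.LT.T7.H227

end
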