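import Mathlib
import Fermat.Agent.LT.T7.H227.CovolTop
import Fermat.Agent.LT.T7.H600.Topo
import Fermat.Agent.LT.T7.H236.Lat
import Fermat.Agent.LT.T7.H404.Strict

/-!
# Row LT, tower T7, leaf T7.14.3c `CovolC` (helper671): assembly modulo `SliceC227` (OFF-MAIN)

`covolC_of_slice227 : SliceC227 K → H671.CovolC K`, from

* `covolC_of_leaves227` (helper227, `CovolTop.lean`),
* `topoC600`   (helper600, row 1895),
* `latC236`    (helper236, row 1896),
* `strictC404` (helper404, row 1942, spare of row 1898).

The last leaf `SliceC227` is row 1897.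
-/

set_option autoImplicit false

namespace Fermat.Agent.LT.T7.H227

/-- `CovolC` from the slice leaf alone (the other three leaves are proved). -/
theorem covolC_of_slice227 (K : Type) [Field K] [NumberField K] (hS : SliceC227 K) :
    Fermat.Agent.LT.T7.H671.CovolC K :=
  covolC_of_leaves227 (Fermat.Agent.LT.T7.H600.topoC600 K) (Fermat.Agent.LT.T7.H236.latC236 K)
    hS (Fermat.Agent.LT.T7.H404.strictC404 K)

end Fermat.Agent.LT.T7.H227
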