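import Mathlib
import Fermat.Agent.LT.T7.H227.CovolOfSlice
import Fermat.Agent.LT.T7.H138.Slice

/-!
# Row LT, tower T7, leaf T7.14.3c `CovolC` (helper671, registry row 1747): CLOSED (OFF-MAIN)

`covolC227 K : H671.CovolC K`, UNCONDITIONAL, every number field `K`:
for every `g ∈ GL₂(𝔸_K)` the submodule `latG671 g` is a lattice of `(K_∞)²` of covolume
`c₀ · ‖det g‖_𝔸`, with `c₀ > 0` independent of `g`.

Assembly (all bytes vendored byte-identical from the owners' branches):

* `covolC_of_leaves227` (helper227, `CovolTop.lean`),
* `topoC600`   (helper600, row 1895),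
* `latC236`    (helper236, row 1896),
* `sliceC138`  (helper138, row 2103, spare of row 1897),
* `strictC404` (helper404, row 1942, spare of row 1898).
-/

set_option autoImplicit false

namespace Fermat.Agent.LT.T7.H227

/-- **T7.14.3c `CovolC`, closed.** -/
theorem covolC227 (K : Type) [Field K] [NumberField K] : Fermat.Agent.LT.T7.H671.CovolC K :=
  covolC_of_slice227 K (Fermat.Agent.LT.T7.H138.sliceC138 K)

end Fermat.Agent.LT.T7.H227
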