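import Mathlib
import Fermat.Agent.LT.T7.H963.Compress
import Fermat.Agent.LT.T2.H429.Loc
import Fermat.Agent.LT.T2.H333.Book

/-!
# Row LT, tower T7, node T7.L2.2 `SimpleC`, leaf `DecompC` (helper963, `Compress.lean`)

OFF-MAIN (helper227, spare of registry row 2371).  `decompC227 K : H963.DecompC K`, UNCONDITIONAL,
every number field: every `g ∈ GL₂(𝔸_K)` is peelable for every level `𝔫 ≠ 0`.

`T` = the finite places which divide `𝔫` or where `g` or `g⁻¹` is not integral (finite).
`a` = the product of the local components of `g` at the infinite places and at the places of `T`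
(`locInf429`, `locFin129`; induction on the finite sets, `Peel.inf`, `Peel.fin`);
`k = a⁻¹ g` is trivial at infinity and at `T` and equal to `g` elsewhere: `k ∈ U(𝔫)` (`Peel.lvl`).
-/

set_option autoImplicit false
set_option maxHeartbeats 400000

open IsDedekindDomain NumberField
open Fermat.Agent.LT.H556.A0 Fermat.Agent.LT.H129 Fermat.Agent.LT.T2.H429

noncomputable section

namespace Fermat.Agent.LT.T7.H227

open Fermat.Agent.LT.T7.H963

variable {K : Type} [Field K] [NumberField K]

/-- The finite places where `g` or `g⁻¹` is not integral are finite in number. -/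
theorem finite_nonint227 (g : G K) :
    {v : HeightOneSpectrum (𝓞 K) | ¬ ((∀ i j, finComp v g i j ∈ v.adicCompletionIntegers K) ∧
      ∀ i j, finComp v g⁻¹ i j ∈ v.adicCompletionIntegers K)}.Finite := by
  have h : ∀ a : Adl K, {v : HeightOneSpectrum (𝓞 K) |
      ¬ a.2 v ∈ v.adicCompletionIntegers K}.Finite := fun a => a.2.2
  have hsub : {v : HeightOneSpectrum (𝓞 K) |
      ¬ ((∀ i j, finComp v g i j ∈ v.adicCompletionIntegers K) ∧
        ∀ i j, finComp v g⁻¹ i j ∈ v.adicCompletionIntegers K)}
      ⊆ (⋃ i : Fin 2, ⋃ j : Fin 2, {v : HeightOneSpectrum (𝓞 K) |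
          ¬ ((g : Matrix (Fin 2) (Fin 2) (Adl K)) i j).2 v ∈ v.adicCompletionIntegers K})
        ∪ (⋃ i : Fin 2, ⋃ j : Fin 2, {v : HeightOneSpectrum (𝓞 K) |
          ¬ (((g⁻¹ : G K) : Matrix (Fin 2) (Fin 2) (Adl K)) i j).2 v
            ∈ v.adicCompletionIntegers K}) := by
    intro v hv
    simp only [Set.mem_ofPred_eq, not_and_or, not_forall] at hv
    rcases hv with ⟨i, j, hij⟩ | ⟨i, j, hij⟩
    · exact Or.inl (Set.mem_iUnion.2 ⟨i, Set.mem_iUnion.2 ⟨j, hij⟩⟩)
    · exact Or.inr (Set.mem_iUnion.2 ⟨i, Set.mem_iUnion.2 ⟨j, hij⟩⟩)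
  refine Set.Finite.subset ?_ hsub
  refine Set.Finite.union ?_ ?_
  · exact Set.finite_iUnion fun i => Set.finite_iUnion fun j => h _
  · exact Set.finite_iUnion fun i => Set.finite_iUnion fun j => h _

open scoped Classical in
/-- Peelable elements with prescribed components at the infinite places. -/
theorem exists_peel_inf227 (𝔫 : Ideal (𝓞 K)) (g : G K) (W : Finset (InfinitePlace K)) :
    ∃ a : G K, Peel 𝔫 a ∧
      (∀ w, infCompHom129 w a = if w ∈ W then infCompHom129 w g else 1) ∧
      ∀ v, finCompHom129 v a = 1 := by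
  induction W using Finset.induction_on with
  | empty => exact ⟨1, Peel.one, fun w => by simp, fun v => map_one _⟩
  | insert w W hw ih =>
    obtain ⟨a, ha, haI, haF⟩ := ih
    refine ⟨a * locInf429 w (infCompHom129 w g),
      Peel.inf _ w ha ?_ (isLocalAtInf_locInf429 w _), ?_, ?_⟩
    · rw [trivAtInf_iff129, haI w, if_neg hw]
    · intro w'
      rw [map_mul, haI w']
      by_cases hww : w' = w
      · subst hww
        rw [if_neg hw, one_mul, infCompHom_locInf429, if_pos (Finset.mem_insert_self _ _)]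
      · rw [infCompHom_locInf429_of_ne w _ hww, mul_one]
        by_cases hW : w' ∈ W
        · rw [if_pos hW, if_pos (Finset.mem_insert_of_mem hW)]
        · rw [if_neg hW, if_neg]
          rw [Finset.mem_insert]
          tauto
    · intro v
      rw [map_mul, haF v, finCompHom_locInf429, mul_one]

open scoped Classical in
/-- Peelable elements with prescribed components. -/
theorem exists_peel_fin227 (𝔫 : Ideal (𝓞 K)) (g : G K) (T : Finset (HeightOneSpectrum (𝓞 K))) :
    ∃ a : G K, Peel 𝔫 a ∧ (∀ w, infCompHom129 w a = infCompHom129 w g) ∧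
      ∀ v, finCompHom129 v a = if v ∈ T then finCompHom129 v g else 1 := by
  induction T using Finset.induction_on with
  | empty =>
    obtain ⟨a, ha, haI, haF⟩ := exists_peel_inf227 𝔫 g Finset.univ
    exact ⟨a, ha, fun w => by rw [haI w, if_pos (Finset.mem_univ w)], fun v => by simpa using haF v⟩
  | insert v T hv ih =>
    obtain ⟨a, ha, haI, haF⟩ := ih
    refine ⟨a * locFin129 v (finCompHom129 v g),
      Peel.fin _ v ha ?_ (isLocalAtFin_locFin129 v _), ?_, ?_⟩
    · rw [trivAtFin_iff129, haF v, if_neg hv]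
    · intro w
      rw [map_mul, haI w, infCompHom129_locFin129, mul_one]
    · intro v'
      rw [map_mul, haF v']
      by_cases hvv : v' = v
      · subst hvv
        rw [if_neg hv, one_mul, finCompHom129_locFin129, if_pos (Finset.mem_insert_self _ _)]
      · rw [finCompHom129_locFin129_of_ne v _ hvv, mul_one]
        by_cases hT : v' ∈ T
        · rw [if_pos hT, if_pos (Finset.mem_insert_of_mem hT)]
        · rw [if_neg hT, if_neg]
          rw [Finset.mem_insert]
          tauto

/-- Membership in the closure of `𝔫` at `v ∤ 𝔫` of the entries of `x - 1`, `x` integral. -/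
theorem sub_one_mem227 {𝔫 : Ideal (𝓞 K)} {v : HeightOneSpectrum (𝓞 K)} (hv : ¬ v.asIdeal ∣ 𝔫)
    (M : Matrix (Fin 2) (Fin 2) (v.adicCompletion K))
    (hM : ∀ i j, M i j ∈ v.adicCompletionIntegers K) (i j : Fin 2) :
    (M - 1) i j ∈ idealClosure 𝔫 v := by
  refine Fermat.Agent.LT.T2.H333.mem_idealClosure_of_int333 hv ?_
  have h1 : (1 : Matrix (Fin 2) (Fin 2) (v.adicCompletion K)) i j
      ∈ v.adicCompletionIntegers K :=
    (HeightOneSpectrum.mem_adicCompletionIntegers (𝓞 K) K v).2
      (Fermat.Agent.LT.T2.H333.val_one_entry_le333 v i j)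
  have h2 : M i j - (1 : Matrix (Fin 2) (Fin 2) (v.adicCompletion K)) i j
      ∈ v.adicCompletionIntegers K := sub_mem (hM i j) h1
  exact (HeightOneSpectrum.mem_adicCompletionIntegers (𝓞 K) K v).1 h2

/-- **LEAF `DecompC`** (helper963, `Compress.lean`): every element of `GL₂(𝔸_K)` is peelable. -/
theorem decompC227 (K : Type) [Field K] [NumberField K] : DecompC K := by
  classical
  intro 𝔫 h𝔫 g
  have hfin1 := finite_nonint227 g
  have hfin2 : {v : HeightOneSpectrum (𝓞 K) | v.asIdeal ∣ 𝔫}.Finite := Ideal.finite_factors h𝔫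
  set T : Finset (HeightOneSpectrum (𝓞 K)) := hfin1.toFinset ∪ hfin2.toFinset with hT
  have hT1 : ∀ v, v ∉ T → (∀ i j, finComp v g i j ∈ v.adicCompletionIntegers K) ∧
      ∀ i j, finComp v g⁻¹ i j ∈ v.adicCompletionIntegers K := fun v hv => by
    by_contra hcon
    exact hv (Finset.mem_union_left _ ((Set.Finite.mem_toFinset hfin1).2 hcon))
  have hT2 : ∀ v, v ∉ T → ¬ v.asIdeal ∣ 𝔫 := fun v hv hdvd =>
    hv (Finset.mem_union_right _ ((Set.Finite.mem_toFinset hfin2).2 hdvd))
  obtain ⟨a, ha, haI, haF⟩ := exists_peel_fin227 𝔫 g T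
  have hkF : ∀ v, finCompHom129 v (a⁻¹ * g) = if v ∈ T then 1 else finCompHom129 v g := fun v => by
    rw [map_mul, map_inv, haF v]
    split_ifs
    · rw [inv_mul_cancel]
    · rw [inv_one, one_mul]
  have hk : InLevelGroup 𝔫 (a⁻¹ * g) := by
    refine ⟨fun w => ?_, fun v i j => ⟨?_, ?_⟩⟩
    · rw [trivAtInf_iff129, map_mul, map_inv, haI w, inv_mul_cancel]
    · rw [← coe_finCompHom129, hkF v]
      by_cases hv : v ∈ T
      · rw [if_pos hv, Units.val_one, sub_self]
        exact Fermat.Agent.LT.T2.H333.zero_mem_idealClosure333 𝔫 v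
      · rw [if_neg hv, coe_finCompHom129]
        exact sub_one_mem227 (hT2 v hv) _ (hT1 v hv).1 i j
    · rw [← coe_finCompHom129, map_inv, hkF v]
      by_cases hv : v ∈ T
      · rw [if_pos hv, inv_one, Units.val_one, sub_self]
        exact Fermat.Agent.LT.T2.H333.zero_mem_idealClosure333 𝔫 v
      · rw [if_neg hv, ← map_inv, coe_finCompHom129]
        exact sub_one_mem227 (hT2 v hv) _ (hT1 v hv).2 i j
  have h := Peel.lvl (a⁻¹ * g) ha hk
  rwa [mul_inv_cancel_left] at h

end Fermat.Agent.LT.T7.H227
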