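import Mathlib
import Fermat.Agent.LT.T2.H197.S2Rot
import Fermat.Agent.LT.T7.H444.ArchGelfandCore

/-!
# Row LT, tower T7, node StepMC981 (cut of helper445): the LOCAL SPHERE MEAN on `GL₂(ℂ)` -- core

OFF-MAIN (helper227, SPARE).  Imports: Mathlib, `T2/H197/S2Rot.lean` (helper197: invariance of
`sin β dβ dα` under the rotations, `subS2Rot_stmt197`), `T7/H444/ArchGelfandCore.lean` (helper444:
the Gelfand pair `(GL₂(ℂ), U(2))`, `conv_comm_biU444`, `conv_biU444`) and `T6/H8/Unimod.lean`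
(helper8), byte-identical copies.  No tower Spec is imported.

* `continuous_mkGL227`, `continuous_sph227` : the sphere family `y(α,β)` is continuous.
* `sphM227 y Φ` : the local sphere mean `g ↦ ∫∫ Φ(g y(α,β)) sin β dβ dα` (the body of
  `H445.sphMeanC445`); `continuous_sphM227`, `hasCompactSupport_sphM227`, `sphM_biU227`
  (right invariance = rotation invariance of the sphere measure), `sphM_conj227`.
* `swap_interval227` : Fubini for an interval and a Radon measure.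
* `continuous_conv227`, `hasCompactSupport_conv227` : the convolution of `C_c` functions.
* `sphM_conv227` : `M (A ⋆ B) = A ⋆ M B` (Fubini);
  `conv_sphM_left227` : `M A ⋆ B = M (A ⋆ B)` for bi-`U(2)`-invariant `A`, `B`.
* `sphConv227` : the iterated convolution with ONE factor replaced by its sphere mean is the
  sphere mean of the iterated convolution (core form of `H445.SphConvC445`).
-/

set_option autoImplicit false
set_option maxHeartbeats 400000
set_option linter.style.haveILetI false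
set_option linter.unusedSectionVars false

open MeasureTheory MeasureTheory.Measure Matrix Set
open Fermat.Agent.LT.H556.A0

noncomputable section

namespace Fermat.Agent.LT.T7.H227

/-! ## 0. The topology of `GL₂(ℂ)` -/

/-- `mkOfDetNeZero` is continuous on the matrices of non-zero determinant. -/
theorem continuous_mkGL227 :
    Continuous (fun m : {m : Matrix (Fin 2) (Fin 2) ℂ // m.det ≠ 0} =>
      Matrix.GeneralLinearGroup.mkOfDetNeZero m.1 m.2) := by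
  rw [Units.continuous_iff]
  refine ⟨continuous_subtype_val, ?_⟩
  have h : (fun m : {m : Matrix (Fin 2) (Fin 2) ℂ // m.det ≠ 0} =>
      (((Matrix.GeneralLinearGroup.mkOfDetNeZero m.1 m.2)⁻¹ : GL (Fin 2) ℂ) :
        Matrix (Fin 2) (Fin 2) ℂ))
      = fun m => (m.1.det)⁻¹ • m.1.adjugate := by
    funext m
    rw [Matrix.coe_units_inv]
    show (m.1)⁻¹ = _
    rw [Matrix.inv_def, Ring.inverse_eq_inv']
  rw [h]
  exact ((continuous_subtype_val.matrix_det).inv₀ (fun m => m.2)).smul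
    continuous_subtype_val.matrix_adjugate

theorem det_ne_zero_GL227 (g : GL (Fin 2) ℂ) : (g : Matrix (Fin 2) (Fin 2) ℂ).det ≠ 0 :=
  ((Matrix.isUnit_iff_isUnit_det _).mp g.isUnit).ne_zero

theorem mkGL_val227 (g : GL (Fin 2) ℂ) (h : (g : Matrix (Fin 2) (Fin 2) ℂ).det ≠ 0) :
    Matrix.GeneralLinearGroup.mkOfDetNeZero (g : Matrix (Fin 2) (Fin 2) ℂ) h = g :=
  Units.ext rfl

theorem continuous_rotZ227 : Continuous rotZ := by
  have h : rotZ = fun α : ℝ => !![Complex.exp (Complex.I * ((α / 2 : ℝ) : ℂ)), 0;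
     0, Complex.exp (-(Complex.I * ((α / 2 : ℝ) : ℂ)))] := rfl
  rw [h]
  refine continuous_matrix fun i j => ?_
  fin_cases i <;> fin_cases j <;> simp <;> fun_prop

theorem continuous_rotY227 : Continuous rotY := by
  have h : rotY = fun β : ℝ => !![((Real.cos (β / 2) : ℝ) : ℂ), -((Real.sin (β / 2) : ℝ) : ℂ);
     ((Real.sin (β / 2) : ℝ) : ℂ), ((Real.cos (β / 2) : ℝ) : ℂ)] := rfl
  rw [h]
  refine continuous_matrix fun i j => ?_
  fin_cases i <;> fin_cases j <;> simp <;> fun_prop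

/-- `y` is the sphere family of radius `d` of `GL₂(ℂ)`. -/
def IsSph227 (d : ℝ) (y : ℝ → ℝ → GL (Fin 2) ℂ) : Prop :=
  ∀ α β : ℝ, ((y α β : GL (Fin 2) ℂ) : Matrix (Fin 2) (Fin 2) ℂ) = rotZ α * rotY β * torus d

theorem continuous_sph227 {d : ℝ} {y : ℝ → ℝ → GL (Fin 2) ℂ} (hy : IsSph227 d y) :
    Continuous (fun p : ℝ × ℝ => y p.1 p.2) := by
  have hdet : ∀ p : ℝ × ℝ, (rotZ p.1 * rotY p.2 * torus d).det ≠ 0 := by
    intro p
    rw [← hy]
    exact det_ne_zero_GL227 _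
  have hc : Continuous (fun p : ℝ × ℝ => rotZ p.1 * rotY p.2 * torus d) :=
    ((continuous_rotZ227.comp continuous_fst).matrix_mul
      (continuous_rotY227.comp continuous_snd)).matrix_mul continuous_const
  have h : (fun p : ℝ × ℝ => y p.1 p.2)
      = fun p => Matrix.GeneralLinearGroup.mkOfDetNeZero _ (hdet p) := by
    funext p
    apply Units.ext
    rw [hy]
    rfl
  rw [h]
  exact continuous_mkGL227.comp (hc.subtype_mk hdet)

/-! ## 1. The local sphere mean -/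

/-- THE LOCAL SPHERE MEAN on `GL₂(ℂ)`: `g ↦ ∫∫ Φ(g y(α,β)) sin β dβ dα`. -/
def sphM227 (y : ℝ → ℝ → GL (Fin 2) ℂ) (Φ : GL (Fin 2) ℂ → ℂ) : GL (Fin 2) ℂ → ℂ :=
  fun g => ∫ α in (0 : ℝ)..(2 * Real.pi), ∫ β in (0 : ℝ)..Real.pi,
    Φ (g * y α β) * ((Real.sin β : ℝ) : ℂ)

theorem continuous_sphM227 {y : ℝ → ℝ → GL (Fin 2) ℂ}
    (hyc : Continuous (fun p : ℝ × ℝ => y p.1 p.2)) {Φ : GL (Fin 2) ℂ → ℂ}
    (hΦ : Continuous Φ) : Continuous (sphM227 y Φ) := by
  have h1 : Continuous (Function.uncurry (fun (q : GL (Fin 2) ℂ × ℝ) (β : ℝ) =>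
      Φ (q.1 * y q.2 β) * ((Real.sin β : ℝ) : ℂ))) := by
    have hy' : Continuous (fun r : (GL (Fin 2) ℂ × ℝ) × ℝ => y r.1.2 r.2) :=
      hyc.comp ((continuous_snd.comp continuous_fst).prodMk continuous_snd)
    have hs : Continuous (fun r : (GL (Fin 2) ℂ × ℝ) × ℝ => ((Real.sin r.2 : ℝ) : ℂ)) := by
      fun_prop
    exact (hΦ.comp ((continuous_fst.comp continuous_fst).mul hy')).mul hs
  have h2 := intervalIntegral.continuous_parametric_intervalIntegral_of_continuous'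
    (μ := volume) h1 0 Real.pi
  have h3 : Continuous (Function.uncurry (fun (g : GL (Fin 2) ℂ) (α : ℝ) =>
      ∫ β in (0 : ℝ)..Real.pi, Φ (g * y α β) * ((Real.sin β : ℝ) : ℂ))) := h2
  exact intervalIntegral.continuous_parametric_intervalIntegral_of_continuous'
    (μ := volume) h3 0 (2 * Real.pi)

theorem sphM_eq_zero227 {y : ℝ → ℝ → GL (Fin 2) ℂ} {Φ : GL (Fin 2) ℂ → ℂ} {g : GL (Fin 2) ℂ}
    (h : ∀ α ∈ Icc (0 : ℝ) (2 * Real.pi), ∀ β ∈ Icc (0 : ℝ) Real.pi, Φ (g * y α β) = 0) :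
    sphM227 y Φ g = 0 := by
  have h2pi : (0 : ℝ) ≤ 2 * Real.pi := by positivity
  show ∫ α in (0 : ℝ)..(2 * Real.pi), ∫ β in (0 : ℝ)..Real.pi,
    Φ (g * y α β) * ((Real.sin β : ℝ) : ℂ) = 0
  have e : ∀ α ∈ uIcc (0 : ℝ) (2 * Real.pi),
      (∫ β in (0 : ℝ)..Real.pi, Φ (g * y α β) * ((Real.sin β : ℝ) : ℂ)) = 0 := by
    intro α hα
    rw [uIcc_of_le h2pi] at hα
    have e' : ∀ β ∈ uIcc (0 : ℝ) Real.pi,
        Φ (g * y α β) * ((Real.sin β : ℝ) : ℂ) = 0 := by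
      intro β hβ
      rw [uIcc_of_le Real.pi_pos.le] at hβ
      rw [h α hα β hβ, zero_mul]
    rw [intervalIntegral.integral_congr e']
    simp
  rw [intervalIntegral.integral_congr e]
  simp

theorem hasCompactSupport_sphM227 {y : ℝ → ℝ → GL (Fin 2) ℂ}
    (hyc : Continuous (fun p : ℝ × ℝ => y p.1 p.2)) {Φ : GL (Fin 2) ℂ → ℂ}
    (hΦ : HasCompactSupport Φ) : HasCompactSupport (sphM227 y Φ) := by
  have hC : IsCompact ((fun q : GL (Fin 2) ℂ × (ℝ × ℝ) => q.1 * (y q.2.1 q.2.2)⁻¹) ''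
      (tsupport Φ ×ˢ (Icc (0 : ℝ) (2 * Real.pi) ×ˢ Icc (0 : ℝ) Real.pi))) := by
    refine (hΦ.isCompact.prod (isCompact_Icc.prod isCompact_Icc)).image ?_
    exact continuous_fst.mul (hyc.comp continuous_snd).inv
  refine HasCompactSupport.intro hC ?_
  intro g hg
  apply sphM_eq_zero227
  intro α hα β hβ
  by_contra hne
  apply hg
  refine ⟨(g * y α β, (α, β)), ⟨subset_tsupport _ hne, hα, hβ⟩, ?_⟩
  show g * y α β * (y α β)⁻¹ = g
  rw [mul_inv_cancel_right]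

/-- `k` is in `U(2)`. -/
def IsU227 (k : GL (Fin 2) ℂ) : Prop :=
  (k : Matrix (Fin 2) (Fin 2) ℂ) * (k : Matrix (Fin 2) (Fin 2) ℂ).conjTranspose = 1

theorem isU_one227 : IsU227 1 := by
  show ((1 : GL (Fin 2) ℂ) : Matrix (Fin 2) (Fin 2) ℂ)
      * ((1 : GL (Fin 2) ℂ) : Matrix (Fin 2) (Fin 2) ℂ).conjTranspose = 1
  rw [Units.val_one]; simp

theorem biU_left227 {Φ : GL (Fin 2) ℂ → ℂ} (hΦ : H444.IsBiU444 Φ) {k : GL (Fin 2) ℂ}
    (hk : IsU227 k) (g : GL (Fin 2) ℂ) : Φ (k * g) = Φ g := by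
  have := hΦ k 1 g hk isU_one227
  rwa [mul_one] at this

theorem biU_right227 {Φ : GL (Fin 2) ℂ → ℂ} (hΦ : H444.IsBiU444 Φ) {k : GL (Fin 2) ℂ}
    (hk : IsU227 k) (g : GL (Fin 2) ℂ) : Φ (g * k) = Φ g := by
  have := hΦ 1 k g isU_one227 hk
  rwa [one_mul] at this

theorem sphM_left227 {y : ℝ → ℝ → GL (Fin 2) ℂ} {Φ : GL (Fin 2) ℂ → ℂ}
    (hΦ : H444.IsBiU444 Φ) {k : GL (Fin 2) ℂ} (hk : IsU227 k) (g : GL (Fin 2) ℂ) :
    sphM227 y Φ (k * g) = sphM227 y Φ g := by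
  show ∫ α in (0 : ℝ)..(2 * Real.pi), ∫ β in (0 : ℝ)..Real.pi,
      Φ (k * g * y α β) * ((Real.sin β : ℝ) : ℂ)
    = ∫ α in (0 : ℝ)..(2 * Real.pi), ∫ β in (0 : ℝ)..Real.pi,
      Φ (g * y α β) * ((Real.sin β : ℝ) : ℂ)
  have e : ∀ α β : ℝ, Φ (k * g * y α β) = Φ (g * y α β) := by
    intro α β
    rw [mul_assoc]
    exact biU_left227 hΦ hk _
  simp only [e]

theorem sphM_right227 {d : ℝ} {y : ℝ → ℝ → GL (Fin 2) ℂ} (hy : IsSph227 d y)
    {Φ : GL (Fin 2) ℂ → ℂ} (hΦc : Continuous Φ) (hΦ : H444.IsBiU444 Φ)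
    {k : GL (Fin 2) ℂ} (hk : IsU227 k) (g : GL (Fin 2) ℂ) :
    sphM227 y Φ (g * k) = sphM227 y Φ g := by
  classical
  let ψ : Matrix (Fin 2) (Fin 2) ℂ → ℂ := fun m =>
    if h : m.det ≠ 0 then Φ (g * Matrix.GeneralLinearGroup.mkOfDetNeZero m h) else 0
  have hψc : ContinuousOn ψ {m | m.det ≠ 0} := by
    rw [continuousOn_iff_continuous_domRestrict]
    have e : ({m : Matrix (Fin 2) (Fin 2) ℂ | m.det ≠ 0}.domRestrict ψ)
        = fun m : {m : Matrix (Fin 2) (Fin 2) ℂ // m.det ≠ 0} =>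
          Φ (g * Matrix.GeneralLinearGroup.mkOfDetNeZero m.1 m.2) := by
      funext m
      show ψ m.1 = _
      exact dif_pos m.2
    rw [e]
    exact hΦc.comp (continuous_const.mul continuous_mkGL227)
  have hψinv : ∀ m k' : Matrix (Fin 2) (Fin 2) ℂ, k' * k'.conjTranspose = 1 →
      ψ (m * k') = ψ m := by
    intro m k' hk'
    have hdk : k'.det ≠ 0 := by
      intro h0
      have := congrArg Matrix.det hk'
      rw [Matrix.det_mul, h0, zero_mul, Matrix.det_one] at this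
      exact zero_ne_one this
    by_cases hm : m.det ≠ 0
    · have hmk : (m * k').det ≠ 0 := by
        rw [Matrix.det_mul]; exact mul_ne_zero hm hdk
      simp only [ψ]
      rw [dif_pos hm, dif_pos hmk]
      have e : Matrix.GeneralLinearGroup.mkOfDetNeZero (m * k') hmk
          = Matrix.GeneralLinearGroup.mkOfDetNeZero m hm
            * Matrix.GeneralLinearGroup.mkOfDetNeZero k' hdk := Units.ext rfl
      rw [e, ← mul_assoc]
      exact biU_right227 hΦ (k := Matrix.GeneralLinearGroup.mkOfDetNeZero k' hdk) hk' _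
    · have hmk : ¬ (m * k').det ≠ 0 := by
        rw [not_not] at hm ⊢
        rw [Matrix.det_mul, hm, zero_mul]
      simp only [ψ]
      rw [dif_neg hm, dif_neg hmk]
  have key := Fermat.Agent.LT.T2.H197.subS2Rot_stmt197 ψ hψc hψinv
    (k : Matrix (Fin 2) (Fin 2) ℂ) hk d
  have e1 : ∀ α β : ℝ, ψ ((k : Matrix (Fin 2) (Fin 2) ℂ) * (rotZ α * rotY β * torus d))
      = Φ (g * k * y α β) := by
    intro α β
    have hdet : ((k : Matrix (Fin 2) (Fin 2) ℂ) * (rotZ α * rotY β * torus d)).det ≠ 0 := by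
      rw [← hy, ← Units.val_mul]
      exact det_ne_zero_GL227 _
    have e : Matrix.GeneralLinearGroup.mkOfDetNeZero _ hdet = k * y α β := by
      apply Units.ext
      show (k : Matrix (Fin 2) (Fin 2) ℂ) * (rotZ α * rotY β * torus d)
        = ((k * y α β : GL (Fin 2) ℂ) : Matrix (Fin 2) (Fin 2) ℂ)
      rw [Units.val_mul, hy]
    simp only [ψ]
    rw [dif_pos hdet, e, mul_assoc]
  have e2 : ∀ α β : ℝ, ψ (rotZ α * rotY β * torus d) = Φ (g * y α β) := by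
    intro α β
    have hdet : (rotZ α * rotY β * torus d).det ≠ 0 := by
      rw [← hy]
      exact det_ne_zero_GL227 _
    have e : Matrix.GeneralLinearGroup.mkOfDetNeZero _ hdet = y α β := by
      apply Units.ext
      show rotZ α * rotY β * torus d = ((y α β : GL (Fin 2) ℂ) : Matrix (Fin 2) (Fin 2) ℂ)
      rw [hy]
    simp only [ψ]
    rw [dif_pos hdet, e]
  simp only [e1, e2] at key
  exact key

theorem sphM_biU227 {d : ℝ} {y : ℝ → ℝ → GL (Fin 2) ℂ} (hy : IsSph227 d y)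
    {Φ : GL (Fin 2) ℂ → ℂ} (hΦc : Continuous Φ) (hΦ : H444.IsBiU444 Φ) :
    H444.IsBiU444 (sphM227 y Φ) := by
  intro k₁ k₂ g hk₁ hk₂
  rw [sphM_right227 hy hΦc hΦ hk₂, sphM_left227 hΦ hk₁]

/-! ## 2. Fubini -/

section Swap

variable {H : Type*} [TopologicalSpace H] [T2Space H] [MeasurableSpace H] [BorelSpace H]

/-- Fubini for an interval and a continuous function which vanishes outside a compact set in
the second variable. -/
theorem swap_interval227 (μ : Measure H) [IsFiniteMeasureOnCompacts μ] [SFinite μ]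
    {f : ℝ → H → ℂ} (hf : Continuous (Function.uncurry f)) {K : Set H} (hK : IsCompact K)
    (hfK : ∀ (t : ℝ) (h : H), h ∉ K → f t h = 0) {a b : ℝ} (hab : a ≤ b) :
    ∫ t in a..b, ∫ h, f t h ∂μ = ∫ h, (∫ t in a..b, f t h) ∂μ := by
  rw [intervalIntegral.integral_of_le hab]
  simp_rw [intervalIntegral.integral_of_le hab]
  refine integral_integral_swap ?_
  have h1 : IntegrableOn (Function.uncurry f) (Icc a b ×ˢ K) ((volume : Measure ℝ).prod μ) :=
    ContinuousOn.integrableOn_compact (isCompact_Icc.prod hK) hf.continuousOn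
  have h2 : IntegrableOn (Function.uncurry f) (Ioc a b ×ˢ (univ : Set H))
      ((volume : Measure ℝ).prod μ) := by
    refine h1.of_forall_sdiff_eq_zero (measurableSet_Ioc.prod MeasurableSet.univ) ?_
    rintro ⟨t, h⟩ ⟨⟨ht, -⟩, hn⟩
    apply hfK
    intro hh
    exact hn ⟨Ioc_subset_Icc_self ht, hh⟩
  rw [IntegrableOn, ← Measure.prod_restrict, Measure.restrict_univ] at h2
  exact h2

end Swap

/-! ## 3. Convolution -/

section Conv

variable [MeasurableSpace (GL (Fin 2) ℂ)] [BorelSpace (GL (Fin 2) ℂ)]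
  (μ : Measure (GL (Fin 2) ℂ)) [IsHaarMeasure μ]

theorem continuous_conv227 {A B : GL (Fin 2) ℂ → ℂ} (hA : Continuous A)
    (hAc : HasCompactSupport A) (hB : Continuous B) :
    Continuous (fun g => ∫ h, A h * B (h⁻¹ * g) ∂μ) := by
  haveI := Fermat.Agent.LT.T6.H8.locallyCompactSpace_GL2C8
  haveI := Fermat.Agent.LT.T6.H8.secondCountableTopology_GL2C8
  have e : (fun g => ∫ h, A h * B (h⁻¹ * g) ∂μ)
      = fun g => ∫ h in tsupport A, A h * B (h⁻¹ * g) ∂μ := by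
    funext g
    symm
    apply setIntegral_eq_integral_of_forall_compl_eq_zero
    intro h hh
    rw [image_eq_zero_of_notMem_tsupport hh, zero_mul]
  rw [e]
  refine continuous_parametric_integral_of_continuous ?_ hAc.isCompact
  exact (hA.comp continuous_snd).mul (hB.comp (continuous_snd.inv.mul continuous_fst))

theorem hasCompactSupport_conv227 {A B : GL (Fin 2) ℂ → ℂ} (hAc : HasCompactSupport A)
    (hBc : HasCompactSupport B) :
    HasCompactSupport (fun g => ∫ h, A h * B (h⁻¹ * g) ∂μ) := by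
  refine HasCompactSupport.intro (hAc.isCompact.mul hBc.isCompact) ?_
  intro g hg
  have e : ∀ h : GL (Fin 2) ℂ, A h * B (h⁻¹ * g) = 0 := by
    intro h
    by_contra hne
    apply hg
    have h1 : A h ≠ 0 := fun h0 => hne (by rw [h0, zero_mul])
    have h2 : B (h⁻¹ * g) ≠ 0 := fun h0 => hne (by rw [h0, mul_zero])
    refine ⟨h, subset_tsupport _ h1, h⁻¹ * g, subset_tsupport _ h2, ?_⟩
    show h * (h⁻¹ * g) = g
    rw [mul_inv_cancel_left]
  simp only [e, integral_zero]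

/-- `M (A ⋆ B) = A ⋆ M B` (Fubini). -/
theorem sphM_conv227 {y : ℝ → ℝ → GL (Fin 2) ℂ}
    (hyc : Continuous (fun p : ℝ × ℝ => y p.1 p.2)) {A B : GL (Fin 2) ℂ → ℂ}
    (hA : Continuous A) (hAc : HasCompactSupport A) (hB : Continuous B) (g : GL (Fin 2) ℂ) :
    sphM227 y (fun x => ∫ h, A h * B (h⁻¹ * x) ∂μ) g
      = ∫ h, A h * sphM227 y B (h⁻¹ * g) ∂μ := by
  haveI := Fermat.Agent.LT.T6.H8.locallyCompactSpace_GL2C8
  haveI := Fermat.Agent.LT.T6.H8.secondCountableTopology_GL2C8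
  have h2pi : (0 : ℝ) ≤ 2 * Real.pi := by positivity
  -- the integrand
  let F : ℝ → ℝ → GL (Fin 2) ℂ → ℂ := fun α β h =>
    A h * B (h⁻¹ * (g * y α β)) * ((Real.sin β : ℝ) : ℂ)
  have hFc : Continuous (fun r : (ℝ × GL (Fin 2) ℂ) × ℝ => F r.1.1 r.2 r.1.2) := by
    have hy' : Continuous (fun r : (ℝ × GL (Fin 2) ℂ) × ℝ => y r.1.1 r.2) :=
      hyc.comp ((continuous_fst.comp continuous_fst).prodMk continuous_snd)
    have hh : Continuous (fun r : (ℝ × GL (Fin 2) ℂ) × ℝ => r.1.2) :=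
      continuous_snd.comp continuous_fst
    have hs : Continuous (fun r : (ℝ × GL (Fin 2) ℂ) × ℝ => ((Real.sin r.2 : ℝ) : ℂ)) := by
      fun_prop
    exact ((hA.comp hh).mul (hB.comp (hh.inv.mul (continuous_const.mul hy')))).mul hs
  have hFK : ∀ (α β : ℝ) (h : GL (Fin 2) ℂ), h ∉ tsupport A → F α β h = 0 := by
    intro α β h hh
    show A h * B (h⁻¹ * (g * y α β)) * ((Real.sin β : ℝ) : ℂ) = 0
    rw [image_eq_zero_of_notMem_tsupport hh, zero_mul, zero_mul]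
  -- step 1
  have s1 : sphM227 y (fun x => ∫ h, A h * B (h⁻¹ * x) ∂μ) g
      = ∫ α in (0 : ℝ)..(2 * Real.pi), ∫ β in (0 : ℝ)..Real.pi, ∫ h, F α β h ∂μ := by
    show ∫ α in (0 : ℝ)..(2 * Real.pi), ∫ β in (0 : ℝ)..Real.pi,
        (∫ h, A h * B (h⁻¹ * (g * y α β)) ∂μ) * ((Real.sin β : ℝ) : ℂ) = _
    simp only [F, integral_mul_const]
  -- step 2: the inner swap
  have s2 : ∀ α : ℝ, ∫ β in (0 : ℝ)..Real.pi, ∫ h, F α β h ∂μ
      = ∫ h, (∫ β in (0 : ℝ)..Real.pi, F α β h) ∂μ := by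
    intro α
    refine swap_interval227 μ (f := fun β h => F α β h) ?_ hAc.isCompact (hFK α)
      Real.pi_pos.le
    exact hFc.comp (((continuous_const (y := α)).prodMk continuous_snd).prodMk continuous_fst)
  -- step 3: the outer swap
  have hIc : Continuous (Function.uncurry (fun (α : ℝ) (h : GL (Fin 2) ℂ) =>
      ∫ β in (0 : ℝ)..Real.pi, F α β h)) :=
    intervalIntegral.continuous_parametric_intervalIntegral_of_continuous'
      (μ := volume) (f := fun (q : ℝ × GL (Fin 2) ℂ) (β : ℝ) => F q.1 β q.2) hFc 0 Real.pi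
  have s3 : ∫ α in (0 : ℝ)..(2 * Real.pi), ∫ h, (∫ β in (0 : ℝ)..Real.pi, F α β h) ∂μ
      = ∫ h, (∫ α in (0 : ℝ)..(2 * Real.pi), ∫ β in (0 : ℝ)..Real.pi, F α β h) ∂μ := by
    refine swap_interval227 μ hIc hAc.isCompact ?_ h2pi
    intro α h hh
    simp only [hFK _ _ h hh]
    simp
  rw [s1]
  simp only [s2]
  rw [s3]
  refine integral_congr_ae (Filter.Eventually.of_forall fun h => ?_)
  show ∫ α in (0 : ℝ)..(2 * Real.pi), ∫ β in (0 : ℝ)..Real.pi,
      A h * B (h⁻¹ * (g * y α β)) * ((Real.sin β : ℝ) : ℂ)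
    = A h * ∫ α in (0 : ℝ)..(2 * Real.pi), ∫ β in (0 : ℝ)..Real.pi,
      B (h⁻¹ * g * y α β) * ((Real.sin β : ℝ) : ℂ)
  simp only [mul_assoc, intervalIntegral.integral_const_mul]

/-- `M A ⋆ B = M (A ⋆ B)` for good `A`, `B` (the bi-`U(2)`-invariant functions commute). -/
theorem conv_sphM_left227 {d : ℝ} {y : ℝ → ℝ → GL (Fin 2) ℂ} (hy : IsSph227 d y)
    {A B : GL (Fin 2) ℂ → ℂ} (hA : Continuous A) (hAU : H444.IsBiU444 A)
    (hB : Continuous B) (hBc : HasCompactSupport B) (hBU : H444.IsBiU444 B)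
    (g : GL (Fin 2) ℂ) :
    ∫ h, sphM227 y A h * B (h⁻¹ * g) ∂μ
      = sphM227 y (fun x => ∫ h, A h * B (h⁻¹ * x) ∂μ) g := by
  have hyc := continuous_sph227 hy
  rw [H444.conv_comm_biU444 μ (sphM_biU227 hy hA hAU) hBU g,
    ← sphM_conv227 μ hyc hB hBc hA g]
  have e : (fun x => ∫ h, B h * A (h⁻¹ * x) ∂μ) = fun x => ∫ h, A h * B (h⁻¹ * x) ∂μ := by
    funext x
    exact H444.conv_comm_biU444 μ hBU hAU x
  rw [e]

/-- The iterated convolution (left nested). -/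
def convIt227 (Φ : ℕ → GL (Fin 2) ℂ → ℂ) : ℕ → GL (Fin 2) ℂ → ℂ
  | 0 => Φ 0
  | (j + 1) => fun g => ∫ h, convIt227 Φ j h * Φ (j + 1) (h⁻¹ * g) ∂μ

/-- The properties of the components which are used. -/
def IsGood227 (Φ : GL (Fin 2) ℂ → ℂ) : Prop :=
  Continuous Φ ∧ HasCompactSupport Φ ∧ H444.IsBiU444 Φ

theorem good_convIt227 (N : ℕ) (Ψ : ℕ → GL (Fin 2) ℂ → ℂ)
    (hΨ : ∀ j : ℕ, j ≤ N → IsGood227 (Ψ j)) : IsGood227 (convIt227 μ Ψ N) := by
  induction N with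
  | zero => exact hΨ 0 le_rfl
  | succ N ih =>
    have ih' := ih (fun j hj => hΨ j (Nat.le_succ_of_le hj))
    have hB := hΨ (N + 1) le_rfl
    exact ⟨continuous_conv227 μ ih'.1 ih'.2.1 hB.1,
      hasCompactSupport_conv227 μ ih'.2.1 hB.2.1, H444.conv_biU444 μ ih'.2.2 hB.2.2⟩

theorem convIt_congr227 (N : ℕ) (Ψ Ψ' : ℕ → GL (Fin 2) ℂ → ℂ)
    (h : ∀ j : ℕ, j ≤ N → Ψ j = Ψ' j) : convIt227 μ Ψ N = convIt227 μ Ψ' N := by
  induction N with
  | zero => exact h 0 le_rfl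
  | succ N ih =>
    show (fun g => ∫ x, convIt227 μ Ψ N x * Ψ (N + 1) (x⁻¹ * g) ∂μ)
      = fun g => ∫ x, convIt227 μ Ψ' N x * Ψ' (N + 1) (x⁻¹ * g) ∂μ
    rw [ih (fun j hj => h j (Nat.le_succ_of_le hj)), h (N + 1) le_rfl]

/-- **SPH-CONV, core form.**  The iterated convolution with ONE factor replaced by its local
sphere mean is the local sphere mean of the iterated convolution. -/
theorem sphConv227 {d : ℝ} {y : ℝ → ℝ → GL (Fin 2) ℂ} (hy : IsSph227 d y)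
    (N : ℕ) (Ψ : ℕ → GL (Fin 2) ℂ → ℂ) (hΨ : ∀ j : ℕ, j ≤ N → IsGood227 (Ψ j))
    (j₀ : ℕ) (hj : j₀ ≤ N) :
    convIt227 μ (fun j => if j = j₀ then sphM227 y (Ψ j₀) else Ψ j) N
      = sphM227 y (convIt227 μ Ψ N) := by
  have hyc := continuous_sph227 hy
  induction N with
  | zero =>
    have h0 : j₀ = 0 := Nat.le_zero.mp hj
    subst h0
    show (if (0 : ℕ) = 0 then sphM227 y (Ψ 0) else Ψ 0) = sphM227 y (Ψ 0)
    rw [if_pos rfl]
  | succ N ih =>
    have hΨ' : ∀ j : ℕ, j ≤ N → IsGood227 (Ψ j) := fun j hj' => hΨ j (Nat.le_succ_of_le hj')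
    have hC := good_convIt227 μ N Ψ hΨ'
    have hB := hΨ (N + 1) le_rfl
    funext g
    show ∫ x, convIt227 μ (fun j => if j = j₀ then sphM227 y (Ψ j₀) else Ψ j) N x
        * (if N + 1 = j₀ then sphM227 y (Ψ j₀) else Ψ (N + 1)) (x⁻¹ * g) ∂μ
      = sphM227 y (fun g' => ∫ x, convIt227 μ Ψ N x * Ψ (N + 1) (x⁻¹ * g') ∂μ) g
    rcases Nat.lt_or_ge N j₀ with hlt | hge
    · -- `j₀ = N + 1`
      have hj₀ : j₀ = N + 1 := le_antisymm hj hlt
      subst hj₀
      rw [if_pos rfl]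
      have e : convIt227 μ (fun j => if j = N + 1 then sphM227 y (Ψ (N + 1)) else Ψ j) N
          = convIt227 μ Ψ N := by
        apply convIt_congr227
        intro j hj'
        show (if j = N + 1 then sphM227 y (Ψ (N + 1)) else Ψ j) = Ψ j
        rw [if_neg (by omega)]
      rw [e]
      exact (sphM_conv227 μ hyc hC.1 hC.2.1 hB.1 g).symm
    · -- `j₀ ≤ N`
      rw [if_neg (by omega), ih hΨ' hge]
      exact conv_sphM_left227 μ hy hC.1 hC.2.2 hB.1 hB.2.1 hB.2.2 g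

end Conv

/-! ## 4. The complex conjugation -/

theorem rotZ_add_two_pi227 (α : ℝ) : rotZ (α + 2 * Real.pi) = -rotZ α := by
  have h : rotZ = fun α : ℝ => !![Complex.exp (Complex.I * ((α / 2 : ℝ) : ℂ)), 0;
     0, Complex.exp (-(Complex.I * ((α / 2 : ℝ) : ℂ)))] := rfl
  have e1 : Complex.exp (Complex.I * (((α + 2 * Real.pi) / 2 : ℝ) : ℂ))
      = -Complex.exp (Complex.I * ((α / 2 : ℝ) : ℂ)) := by
    have : Complex.I * (((α + 2 * Real.pi) / 2 : ℝ) : ℂ)
        = Complex.I * ((α / 2 : ℝ) : ℂ) + (Real.pi : ℂ) * Complex.I := by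
      push_cast; ring
    rw [this, Complex.exp_add, Complex.exp_pi_mul_I]
    ring
  have e2 : Complex.exp (-(Complex.I * (((α + 2 * Real.pi) / 2 : ℝ) : ℂ)))
      = -Complex.exp (-(Complex.I * ((α / 2 : ℝ) : ℂ))) := by
    rw [Complex.exp_neg, e1, Complex.exp_neg, inv_neg]
  rw [h]
  show !![Complex.exp (Complex.I * (((α + 2 * Real.pi) / 2 : ℝ) : ℂ)), 0;
     0, Complex.exp (-(Complex.I * (((α + 2 * Real.pi) / 2 : ℝ) : ℂ)))]
    = -!![Complex.exp (Complex.I * ((α / 2 : ℝ) : ℂ)), 0;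
     0, Complex.exp (-(Complex.I * ((α / 2 : ℝ) : ℂ)))]
  rw [e1, e2]
  ext i j
  fin_cases i <;> fin_cases j <;> simp

theorem map_of227 (f : ℂ →+* ℂ) (a b c d : ℂ) :
    (!![a, b; c, d] : Matrix (Fin 2) (Fin 2) ℂ).map f = !![f a, f b; f c, f d] := by
  ext i j
  fin_cases i <;> fin_cases j <;> rfl

theorem rotZ_conj227 (α : ℝ) : (rotZ α).map (starRingEnd ℂ) = rotZ (-α) := by
  have h : rotZ = fun α : ℝ => !![Complex.exp (Complex.I * ((α / 2 : ℝ) : ℂ)), 0;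
     0, Complex.exp (-(Complex.I * ((α / 2 : ℝ) : ℂ)))] := rfl
  have e1 : (starRingEnd ℂ) (Complex.exp (Complex.I * ((α / 2 : ℝ) : ℂ)))
      = Complex.exp (Complex.I * (((-α) / 2 : ℝ) : ℂ)) := by
    rw [← Complex.exp_conj]
    congr 1
    rw [map_mul, Complex.conj_I, Complex.conj_ofReal]
    push_cast; ring
  have e2 : (starRingEnd ℂ) (Complex.exp (-(Complex.I * ((α / 2 : ℝ) : ℂ))))
      = Complex.exp (-(Complex.I * (((-α) / 2 : ℝ) : ℂ))) := by
    rw [← Complex.exp_conj]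
    congr 1
    rw [map_neg, map_mul, Complex.conj_I, Complex.conj_ofReal]
    push_cast; ring
  rw [h]
  show (!![Complex.exp (Complex.I * ((α / 2 : ℝ) : ℂ)), 0;
     0, Complex.exp (-(Complex.I * ((α / 2 : ℝ) : ℂ)))] : Matrix (Fin 2) (Fin 2) ℂ).map
       (starRingEnd ℂ)
    = !![Complex.exp (Complex.I * (((-α) / 2 : ℝ) : ℂ)), 0;
     0, Complex.exp (-(Complex.I * (((-α) / 2 : ℝ) : ℂ)))]
  rw [map_of227, e1, e2, map_zero]

theorem rotY_conj227 (β : ℝ) : (rotY β).map (starRingEnd ℂ) = rotY β := by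
  have h : rotY = fun β : ℝ => !![((Real.cos (β / 2) : ℝ) : ℂ), -((Real.sin (β / 2) : ℝ) : ℂ);
     ((Real.sin (β / 2) : ℝ) : ℂ), ((Real.cos (β / 2) : ℝ) : ℂ)] := rfl
  rw [h]
  show (!![((Real.cos (β / 2) : ℝ) : ℂ), -((Real.sin (β / 2) : ℝ) : ℂ);
     ((Real.sin (β / 2) : ℝ) : ℂ), ((Real.cos (β / 2) : ℝ) : ℂ)] :
       Matrix (Fin 2) (Fin 2) ℂ).map (starRingEnd ℂ)
    = !![((Real.cos (β / 2) : ℝ) : ℂ), -((Real.sin (β / 2) : ℝ) : ℂ);
     ((Real.sin (β / 2) : ℝ) : ℂ), ((Real.cos (β / 2) : ℝ) : ℂ)]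
  rw [map_of227, map_neg, Complex.conj_ofReal, Complex.conj_ofReal]

theorem torus_conj227 (d : ℝ) : (torus d).map (starRingEnd ℂ) = torus d := by
  have h : torus = fun d : ℝ => !![((Real.exp (d / 2) : ℝ) : ℂ), 0;
     0, ((Real.exp (-(d / 2)) : ℝ) : ℂ)] := rfl
  rw [h]
  show (!![((Real.exp (d / 2) : ℝ) : ℂ), 0;
     0, ((Real.exp (-(d / 2)) : ℝ) : ℂ)] : Matrix (Fin 2) (Fin 2) ℂ).map (starRingEnd ℂ)
    = !![((Real.exp (d / 2) : ℝ) : ℂ), 0;
     0, ((Real.exp (-(d / 2)) : ℝ) : ℂ)]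
  rw [map_of227, Complex.conj_ofReal, Complex.conj_ofReal, map_zero]

/-- The complex conjugation of `GL₂(ℂ)`. -/
def cGL227 : GL (Fin 2) ℂ →* GL (Fin 2) ℂ := Matrix.GeneralLinearGroup.map (starRingEnd ℂ)

theorem cGL_cGL227 (g : GL (Fin 2) ℂ) : cGL227 (cGL227 g) = g := by
  apply Units.ext
  ext i j
  simp [cGL227]

theorem cGL_sph227 {d : ℝ} {y : ℝ → ℝ → GL (Fin 2) ℂ} (hy : IsSph227 d y) (α β : ℝ) :
    cGL227 (y α β) = y (-α) β := by
  apply Units.ext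
  show ((y α β : GL (Fin 2) ℂ) : Matrix (Fin 2) (Fin 2) ℂ).map (starRingEnd ℂ)
    = ((y (-α) β : GL (Fin 2) ℂ) : Matrix (Fin 2) (Fin 2) ℂ)
  rw [hy, hy, Matrix.map_mul, Matrix.map_mul, rotZ_conj227, rotY_conj227, torus_conj227]

theorem isU_neg_one227 : IsU227 (-1) := by
  show ((-1 : GL (Fin 2) ℂ) : Matrix (Fin 2) (Fin 2) ℂ)
      * ((-1 : GL (Fin 2) ℂ) : Matrix (Fin 2) (Fin 2) ℂ).conjTranspose = 1
  rw [Units.val_neg, Units.val_one]
  simp

theorem sph_add_two_pi227 {d : ℝ} {y : ℝ → ℝ → GL (Fin 2) ℂ} (hy : IsSph227 d y) (α β : ℝ) :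
    y (α + 2 * Real.pi) β = y α β * (-1) := by
  apply Units.ext
  rw [Units.val_mul, Units.val_neg, Units.val_one, hy, hy, rotZ_add_two_pi227]
  simp

/-- The local sphere mean preserves the invariance under the complex conjugation. -/
theorem sphM_conj227 {d : ℝ} {y : ℝ → ℝ → GL (Fin 2) ℂ} (hy : IsSph227 d y)
    {Φ : GL (Fin 2) ℂ → ℂ} (hΦU : H444.IsBiU444 Φ)
    (hΦc : ∀ g : GL (Fin 2) ℂ, Φ (cGL227 g) = Φ g) (g : GL (Fin 2) ℂ) :
    sphM227 y Φ (cGL227 g) = sphM227 y Φ g := by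
  let F : ℝ → ℂ := fun α => ∫ β in (0 : ℝ)..Real.pi, Φ (g * y α β) * ((Real.sin β : ℝ) : ℂ)
  have hper : Function.Periodic F (2 * Real.pi) := by
    intro α
    show ∫ β in (0 : ℝ)..Real.pi, Φ (g * y (α + 2 * Real.pi) β) * ((Real.sin β : ℝ) : ℂ)
      = ∫ β in (0 : ℝ)..Real.pi, Φ (g * y α β) * ((Real.sin β : ℝ) : ℂ)
    have e : ∀ β : ℝ, Φ (g * y (α + 2 * Real.pi) β) = Φ (g * y α β) := by
      intro β
      rw [sph_add_two_pi227 hy, ← mul_assoc]
      exact biU_right227 hΦU isU_neg_one227 _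
    simp only [e]
  have e1 : ∀ α β : ℝ, Φ (cGL227 g * y α β) = Φ (g * y (-α) β) := by
    intro α β
    rw [← hΦc (g * y (-α) β), map_mul, ← cGL_sph227 hy, cGL_cGL227]
  show ∫ α in (0 : ℝ)..(2 * Real.pi), ∫ β in (0 : ℝ)..Real.pi,
      Φ (cGL227 g * y α β) * ((Real.sin β : ℝ) : ℂ) = ∫ α in (0 : ℝ)..(2 * Real.pi), F α
  simp only [e1]
  have e2 : ∫ α in (0 : ℝ)..(2 * Real.pi), ∫ β in (0 : ℝ)..Real.pi,
      Φ (g * y (-α) β) * ((Real.sin β : ℝ) : ℂ) = ∫ α in (0 : ℝ)..(2 * Real.pi), F (-α) := rfl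
  rw [e2, intervalIntegral.integral_comp_neg (fun α => F α)]
  have e3 := hper.intervalIntegral_add_eq (-(2 * Real.pi)) 0
  rw [neg_add_cancel, zero_add] at e3
  rw [neg_zero]
  exact e3

end Fermat.Agent.LT.T7.H227
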