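import Mathlib
import Fermat.Agent.LT.T7.H445.StepMSpec
import Fermat.Agent.LT.T7.H227.SphConvCore

/-!
# Row LT, tower T7, node StepMC981 (cut of helper445, `T7/H445/StepMSpec.lean` 95c0ff93):
# the two leaves on `GL₂(ℂ)`, VERBATIM, UNCONDITIONAL

OFF-MAIN (helper227, SPARE of registry rows 2899 / 2900).

* `sphArchC227 : H445.SphArchC445` (LEAF M.7): the local sphere mean preserves continuity,
  compact support, the invariance under the complex conjugation and bi-`U(2)`-invariance.
* `sphConvC227 : H445.SphConvC445` (LEAF M.8): the iterated convolution with ONE factor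
  replaced by its local sphere mean is the local sphere mean of the iterated convolution.

Core: `SphConvCore.lean` (no tower Spec).  The definitions of the Spec are only unfolded by
definitional equality (`show`, `exact`).
-/

set_option autoImplicit false
set_option maxHeartbeats 400000
set_option linter.style.haveILetI false

open MeasureTheory

noncomputable section

namespace Fermat.Agent.LT.T7.H227

theorem convL_eq227 (μc : @Measure (GL (Fin 2) ℂ) (borel _)) (Φ : ℕ → GL (Fin 2) ℂ → ℂ)
    (n : ℕ) : H305.convL305 μc Φ n = @convIt227 (borel _) μc Φ n := by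
  induction n with
  | zero => rfl
  | succ n ih =>
    show @T6.convInt _ _ (borel _) μc (H305.convL305 μc Φ n) (Φ (n + 1))
      = fun g => @integral _ _ _ _ (borel _) μc
          (fun h => @convIt227 (borel _) μc Φ n h * Φ (n + 1) (h⁻¹ * g))
    rw [ih]
    rfl

/-- **LEAF M.7 = SPH-ARCH**, verbatim. -/
theorem sphArchC227 : H445.SphArchC445 := by
  intro d y hy Φ hΦ
  obtain ⟨hc, hs, hconj, hU⟩ := hΦ
  have hy' : IsSph227 d y := hy
  have hyc := continuous_sph227 hy'
  exact ⟨continuous_sphM227 hyc hc, hasCompactSupport_sphM227 hyc hs,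
    fun g => sphM_conj227 hy' hU hconj g, sphM_biU227 hy' hc hU⟩

/-- **LEAF M.8 = SPH-CONV**, verbatim. -/
theorem sphConvC227 : H445.SphConvC445 := by
  intro μc hμ d y hy N Ψ hΨ j₀ hj
  letI : MeasurableSpace (GL (Fin 2) ℂ) := borel _
  haveI : BorelSpace (GL (Fin 2) ℂ) := ⟨rfl⟩
  haveI : Measure.IsHaarMeasure μc := hμ
  have hy' : IsSph227 d y := hy
  rw [convL_eq227, convL_eq227]
  exact sphConv227 μc hy' N Ψ
    (fun j hj' => ⟨(hΨ j hj').1, (hΨ j hj').2.1, (hΨ j hj').2.2.2⟩) j₀ hj

end Fermat.Agent.LT.T7.H227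

end
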