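import Mathlib
import Fermat.Agent.LT.T7.H445.StepMTop
import Fermat.Agent.LT.T7.H510.SphEx
import Fermat.Agent.LT.T7.H32.StepMSph
import Fermat.Agent.LT.T7.H330.SphSupp
import Fermat.Agent.LT.T7.H868.SphOp
import Fermat.Agent.LT.T7.H904.SphPure
import Fermat.Agent.LT.T7.H233.SphAvg
import Fermat.Agent.LT.T7.H904.ArchFibre
import Fermat.Agent.LT.T7.H227.SphConv

/-!
# Row LT, tower T7, node T7.L2.1.H2a.A.3 `B981.StepMC981` (cut of helper445): CLOSED

OFF-MAIN (helper227, INTEGRATION).  The top `H445.stepMC_of445` (helper445, `StepMTop.lean`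
5d29730e) with its eleven leaves plugged, all byte-identical copies of the owners' files:

* `SphExC445`, `SphExLocC445` : helper510 `T7/H510/SphEx.lean`;
* `SphTestC445`, `SphEKC445`  : helper32 `T7/H32/StepMSph.lean` (kits `T5/H32/*`);
* `SphSuppC445`               : helper330 `T7/H330/SphSupp.lean`;
* `SphOpC445`                 : helper868 `T7/H868/SphOp.lean`;
* `SphPureC445`               : helper904 `T7/H904/SphPure.lean`;
* `SphAvgC445`                : helper233 `T7/H233/SphAvg.lean`;
* `SphArchC445`, `SphConvC445`: helper227 `T7/H227/SphConv.lean`;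
* `ArchFibreC445`             : helper904 `T7/H904/ArchFibre.lean`.
-/

set_option autoImplicit false

noncomputable section

namespace Fermat.Agent.LT.T7.H227

/-- **NODE A.3 = STEP-M, CLOSED**: `B981.StepMC981 K K' H893.LocA893`, unconditional. -/
theorem stepMC981_closed227 (K K' : Type) [Field K] [NumberField K] [Field K'] [NumberField K']
    [Algebra K K'] : B981.StepMC981 K K' H893.LocA893 :=
  H445.stepMC_of445 K K' (H510.sphExC_h510 K) (H510.sphExC_h510 K') H510.sphExLocC_h510
    (H32.sphTestC32 K) (H32.sphTestC32 K') (H32.sphEKC32 K) (H32.sphEKC32 K')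
    (H330.sphSuppC330 K) (H330.sphSuppC330 K') (H868.sphOpC868 K) (H868.sphOpC868 K')
    (H904.sphPureC904 K) (H904.sphPureC904 K') (H233.sphAvgC233 K) (H233.sphAvgC233 K')
    sphArchC227 sphConvC227 (H904.archFibreC904 K K')

end Fermat.Agent.LT.T7.H227

end
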